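import Fermat.Agent.Oddness.Involution
import Fermat.Prelude.Def_GaloisRep_LocalConditions
import Fermat.Prelude.Def_GaloisRep_ComplexConjugation
import Mathlib.RingTheory.Filtration
import Mathlib.NumberTheory.Cyclotomic.CyclotomicCharacter

/-!
# Cyclotomic determinant implies odd

Elements of order two of `Gal(Q̄/Q)` invert roots of unity, hence a representation whose
determinant is cyclotomic has determinant `-1` at them.
-/

set_option autoImplicit false

noncomputable section

namespace Fermat.Agent.Oddness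

local notation "Ω" => AlgebraicClosure ℚ
local notation "Γℚ" => (AlgebraicClosure ℚ ≃ₐ[ℚ] AlgebraicClosure ℚ)

theorem algEquiv_involution_apply_rootOfUnity {c : Γℚ} (hcc : c * c = 1) (hc : c ≠ 1)
    {ζ : Ω} {m : ℕ} (hm : m ≠ 0) (hζ : ζ ^ m = 1) : c ζ = ζ⁻¹ := by
  refine involution_apply_rootOfUnity (c := c) (fun x => ?_) ?_ hm hζ
  · rw [← AlgEquiv.mul_apply, hcc, AlgEquiv.one_apply]
  · by_contra h
    push Not at h
    exact hc (AlgEquiv.ext h)

/-- A nontrivial involution inverts roots of unity. -/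
theorem algEquiv_involution_apply_pow_eq {c : Γℚ} (hcc : c * c = 1) (hc : c ≠ 1)
    {ζ : Ω} {m : ℕ} (hm : m ≠ 0) (hζ : ζ ^ m = 1) : c ζ = ζ ^ (m - 1) := by
  rw [algEquiv_involution_apply_rootOfUnity hcc hc hm hζ]
  apply inv_eq_of_mul_eq_one_right
  rw [← pow_succ', Nat.sub_add_cancel (Nat.one_le_iff_ne_zero.mpr hm), hζ]

/-- Complex conjugation is nontrivial. -/
theorem complexConjugation_ne_one : complexConjugation ≠ 1 := by
  intro h
  obtain ⟨i, hi⟩ := IsAlgClosed.exists_eq_mul_self (-1 : Ω)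
  have h1 := complexEmbedding_complexConjugation i
  rw [h, AlgEquiv.one_apply] at h1
  obtain ⟨r, hr⟩ := Complex.conj_eq_iff_real.mp h1.symm
  have h2 := congrArg complexEmbedding hi
  rw [map_neg, map_one, map_mul, hr, ← Complex.ofReal_mul] at h2
  have h3 := congrArg Complex.re h2
  simp at h3
  nlinarith [mul_self_nonneg r]

/-- The cyclotomic character of an element of order two is `-1`. -/
theorem modularCyclotomicCharacter_of_involution (n : ℕ) [NeZero n]
    (hn : Nat.card (rootsOfUnity n Ω) = n) {c : Γℚ} (hcc : c * c = 1) (hc : c ≠ 1) :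
    modularCyclotomicCharacter Ω hn (c : Ω ≃+* Ω) = -1 := by
  refine Units.ext ?_
  refine (modularCyclotomicCharacter.unique Ω hn _ (c := (-1 : ZMod n)) fun t ht => ?_).symm.trans
    (by simp)
  rcases Nat.lt_or_ge 1 n with h1 | h1
  · have hval : (-1 : ZMod n).val = n - 1 := by
      obtain ⟨k, rfl⟩ := Nat.exists_eq_add_of_lt h1
      exact ZMod.val_neg_one _
    rw [hval]
    exact algEquiv_involution_apply_pow_eq hcc hc (NeZero.ne n)
      (by simpa [mem_rootsOfUnity, Units.ext_iff] using ht)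
  · obtain rfl : n = 1 := le_antisymm h1 (Nat.one_le_iff_ne_zero.mpr (NeZero.ne n))
    obtain rfl : t = 1 := by simpa [mem_rootsOfUnity] using ht
    simp

variable {A : Type} [CommRing A] [IsLocalRing A]

theorem det_add_one_mem_span {ρ : GaloisRepAdic A} {p : ℕ} (hp : p ≠ 0)
    (h : ρ.DetIsCyclotomic p) {c : Γℚ} (hcc : c * c = 1) (hc : c ≠ 1) (n : ℕ) :
    LinearMap.det (ρ.ρ c) + 1 ∈ Ideal.span {((p ^ n : ℕ) : A)} := by
  have hpn : p ^ n ≠ 0 := pow_ne_zero n hp
  have h1 := h.2 n c (p ^ n - 1) fun μ hμ => algEquiv_involution_apply_pow_eq hcc hc hpn hμ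
  rw [Nat.cast_sub (Nat.one_le_iff_ne_zero.mpr hpn), Nat.cast_one] at h1
  have := Ideal.add_mem _ h1 (Ideal.mem_span_singleton_self ((p ^ n : ℕ) : A))
  convert this using 1
  ring

theorem det_eq_neg_one [IsNoetherianRing A] {ρ : GaloisRepAdic A} {p : ℕ} (hp : p ≠ 0)
    (h : ρ.DetIsCyclotomic p) {c : Γℚ} (hcc : c * c = 1) (hc : c ≠ 1) :
    LinearMap.det (ρ.ρ c) = -1 := by
  rw [eq_neg_iff_add_eq_zero]
  have hbot := Ideal.iInf_pow_eq_bot_of_isLocalRing (IsLocalRing.maximalIdeal A)
    (IsLocalRing.maximalIdeal.isMaximal A).ne_top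
  have hmem : LinearMap.det (ρ.ρ c) + 1 ∈ ⨅ n : ℕ, IsLocalRing.maximalIdeal A ^ n := by
    refine Submodule.mem_iInf _ |>.mpr fun n => ?_
    refine (Ideal.span_le.mpr ?_) (det_add_one_mem_span hp h hcc hc n)
    rw [Set.singleton_subset_iff, Nat.cast_pow, SetLike.mem_coe]
    exact Ideal.pow_mem_pow h.1 n
  rwa [hbot, Ideal.mem_bot] at hmem

/-- The determinant of the residual representation is the residue of the determinant. -/
theorem det_residual (ρ : GaloisRepAdic A) (σ : Γℚ) :
    LinearMap.det (ρ.residual.ρ σ) = IsLocalRing.residue A (LinearMap.det (ρ.ρ σ)) :=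
  LinearMap.det_baseChange (ρ.ρ σ)

/-- A residual representation with cyclotomic determinant is odd. -/
theorem isOdd_of_detIsCyclotomic {k : Type} [Field k] {ρbar : ResidualGaloisRep k} {p : ℕ}
    (hp : p ≠ 0) (h : (GaloisRepAdic.ofResidualGaloisRep ρbar).DetIsCyclotomic p) :
    ρbar.IsOdd :=
  fun _ hcc hc => det_eq_neg_one (ρ := GaloisRepAdic.ofResidualGaloisRep ρbar) hp h hcc hc

end Fermat.Agent.Oddness
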