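import Fermat.Agent.Oddness.Det
import Fermat.Agent.GaloisBasics.Roots
import Fermat.Agent.RepTheory.FrobTrace
import Mathlib.RingTheory.RootsOfUnity.AlgebraicallyClosed

/-!
# Determinant `ℓ` at Frobenius elements implies cyclotomic determinant

If `det ρ(Frob ℓ) = ℓ` outside a finite set of primes containing `p`, then, as Frobenius elements
generate and the determinant is adically continuous, `det ρ` is the `p`-adic cyclotomic character.
-/

set_option autoImplicit false

noncomputable section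

open Polynomial

namespace Fermat.Agent.Oddness

local notation "Ω" => AlgebraicClosure ℚ
local notation "Γℚ" => (AlgebraicClosure ℚ ≃ₐ[ℚ] AlgebraicClosure ℚ)

variable {A : Type} [CommRing A] [IsLocalRing A]

/-- Continuity of the determinant. -/
theorem exists_field_det_sub_one_mem (ρ : GaloisRepAdic A) (n : ℕ) :
    ∃ L : IntermediateField ℚ Ω, FiniteDimensional ℚ L ∧
      ∀ σ : Γℚ, (∀ x ∈ L, σ x = x) →
        LinearMap.det (ρ.ρ σ) - 1 ∈ IsLocalRing.maximalIdeal A ^ n := by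
  classical
  obtain ⟨L, hL, h⟩ := ρ.isAdicContinuous n
  refine ⟨L, hL, fun σ hσ => ?_⟩
  let b := Module.Free.chooseBasis A ρ.V
  let I := IsLocalRing.maximalIdeal A ^ n
  rw [← LinearMap.det_toMatrix b, ← Ideal.Quotient.eq, RingHom.map_det, map_one]
  have hM : (Ideal.Quotient.mk I).mapMatrix (LinearMap.toMatrix b b (ρ.ρ σ)) = 1 := by
    ext i j
    rw [RingHom.mapMatrix_apply, Matrix.map_apply, LinearMap.toMatrix_apply, Matrix.one_apply]
    have hmem : b.coord i (ρ.ρ σ (b j) - b j) ∈ I := by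
      refine Submodule.smul_induction_on (h σ hσ (b j)) (fun r hr v _ => ?_) (fun x y hx hy => ?_)
      · rw [map_smul, smul_eq_mul]; exact Ideal.mul_mem_right _ _ hr
      · rw [map_add]; exact add_mem hx hy
    rw [map_sub, Module.Basis.coord_apply, Module.Basis.coord_apply, b.repr_self,
      ← Ideal.Quotient.eq_zero_iff_mem, map_sub, sub_eq_zero] at hmem
    rw [hmem, Finsupp.single_apply]
    split_ifs <;> first | rfl | exact map_one _ | exact map_zero _ | simp_all
  rw [hM, Matrix.det_one]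

/-- If `det ρ(Frob ℓ) = ℓ` outside a finite set containing `p`, the determinant is cyclotomic. -/
theorem detIsCyclotomic_of_frobenius [IsNoetherianRing A] {p : ℕ} (hp : p.Prime)
    (hpA : (p : A) ∈ IsLocalRing.maximalIdeal A) {S : Set ℕ}
    (hS : RepTheory.FrobGenerates S) (hpS : p ∈ S) (ρ : GaloisRepAdic A)
    (h : ∀ ℓ : ℕ, ℓ.Prime → ℓ ∉ S → ∀ P : ValuationSubring Ω, P.LiesOverPrime ℓ →
      ∀ φ : Γℚ, P.IsFrobeniusAt φ ℓ → LinearMap.det (ρ.ρ φ) = (ℓ : A)) :
    ρ.DetIsCyclotomic p := by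
  refine ⟨hpA, fun n σ a ha => ?_⟩
  rcases Nat.eq_zero_or_pos n with rfl | hn
  · rw [pow_zero, Nat.cast_one, Ideal.span_singleton_one]; trivial
  set J : Ideal A := Ideal.span {((p ^ n : ℕ) : A)} with hJ
  have hJm : J ≤ IsLocalRing.maximalIdeal A := by
    rw [hJ, Ideal.span_singleton_le_iff_mem, Nat.cast_pow]
    exact Ideal.pow_mem_of_mem _ hpA n hn
  have : NeZero (p ^ n) := ⟨pow_ne_zero n hp.ne_zero⟩
  obtain ⟨ζ, hζ⟩ := HasEnoughRootsOfUnity.exists_primitiveRoot Ω (p ^ n)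
  have hmem : ∀ k : ℕ, LinearMap.det (ρ.ρ σ) - (a : A) ∈ IsLocalRing.maximalIdeal A ^ k ⊔ J := by
    intro k
    obtain ⟨L, hL, hc⟩ := exists_field_det_sub_one_mem ρ k
    have := hL
    have : Algebra.IsAlgebraic ℚ Ω := AlgebraicClosure.isAlgebraic ℚ
    have : FiniteDimensional ℚ (IntermediateField.adjoin ℚ {ζ}) :=
      IntermediateField.adjoin.finiteDimensional (Algebra.IsIntegral.isIntegral ζ)
    obtain ⟨ℓ, hℓ, hℓS, P, hP, φ, hφ, m, hm⟩ :=
      hS (L ⊔ IntermediateField.adjoin ℚ {ζ}) (IntermediateField.finiteDimensional_sup _ _) σ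
    have hℓp : ¬ ℓ ∣ p ^ n := fun hd =>
      hℓS ((Nat.prime_dvd_prime_iff_eq hℓ hp).mp (hℓ.dvd_of_dvd_pow hd) ▸ hpS)
    have hpow : ∀ j : ℕ, (φ ^ j) ζ = ζ ^ ℓ ^ j := by
      intro j
      induction j with
      | zero => simp
      | succ j ih =>
        rw [pow_succ, AlgEquiv.mul_apply,
          GaloisBasics.frobenius_apply_of_pow_eq_one hP hℓ hℓp hφ hζ.pow_eq_one, map_pow, ih,
          ← pow_mul, ← pow_succ]
    have hcong : (a : A) - ((ℓ ^ m : ℕ) : A) ∈ J := by
      have h1 : ζ ^ a = ζ ^ ℓ ^ m := by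
        rw [← ha ζ hζ.pow_eq_one, ← hpow m]
        exact hm ζ (le_sup_right (a := L) (b := IntermediateField.adjoin ℚ {ζ})
          (IntermediateField.mem_adjoin_simple_self ℚ ζ))
      rw [(isOfFinOrder_iff_pow_eq_one.mpr ⟨p ^ n, NeZero.pos _,
          hζ.pow_eq_one⟩).pow_eq_pow_iff_modEq,
        ← hζ.eq_orderOf] at h1
      obtain ⟨c, hc⟩ := (Nat.modEq_iff_dvd.mp h1.symm)
      rw [hJ, Ideal.mem_span_singleton]
      refine ⟨(c : A), ?_⟩
      have := congrArg (fun z : ℤ => (z : A)) hc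
      push_cast at this ⊢
      linear_combination this
    have hfix : ∀ x ∈ L, ((φ ^ m)⁻¹ * σ) x = x := fun x hx => by
      rw [AlgEquiv.mul_apply,
        hm x (le_sup_left (a := L) (b := IntermediateField.adjoin ℚ {ζ}) hx),
        ← AlgEquiv.mul_apply, inv_mul_cancel, AlgEquiv.one_apply]
    have hd := hc _ hfix
    have hσ : σ = φ ^ m * ((φ ^ m)⁻¹ * σ) := by group
    have hdet : LinearMap.det (ρ.ρ σ) - ((ℓ ^ m : ℕ) : A) ∈ IsLocalRing.maximalIdeal A ^ k := by
      rw [hσ, map_mul, map_mul, map_pow, map_pow, h ℓ hℓ hℓS P hP φ hφ, Nat.cast_pow]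
      convert Ideal.mul_mem_left _ ((ℓ : A) ^ m) hd using 1
      ring
    have := Submodule.sub_mem (IsLocalRing.maximalIdeal A ^ k ⊔ J) (Submodule.mem_sup_left hdet)
      (Submodule.mem_sup_right hcong)
    simpa using this
  have : Nontrivial (A ⧸ J) :=
    Ideal.Quotient.nontrivial_iff.mpr fun h => (IsLocalRing.maximalIdeal.isMaximal A).ne_top
      (top_le_iff.mp (h ▸ hJm))
  have : IsLocalRing (A ⧸ J) :=
    IsLocalRing.of_surjective' (Ideal.Quotient.mk J) Ideal.Quotient.mk_surjective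
  rw [← Ideal.Quotient.eq_zero_iff_mem, ← Ideal.mem_bot,
    ← Ideal.iInf_pow_eq_bot_of_isLocalRing (IsLocalRing.maximalIdeal (A ⧸ J))
      (IsLocalRing.maximalIdeal.isMaximal _).ne_top]
  have : IsLocalHom (Ideal.Quotient.mk J) :=
    IsLocalHom.of_surjective _ Ideal.Quotient.mk_surjective
  refine Submodule.mem_iInf _ |>.mpr fun k => ?_
  obtain ⟨u, hu, v, hv, huv⟩ := Submodule.mem_sup.mp (hmem k)
  rw [← huv, map_add, Ideal.Quotient.eq_zero_iff_mem.mpr hv, add_zero]
  have := Ideal.mem_map_of_mem (Ideal.Quotient.mk J) hu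
  rw [Ideal.map_pow] at this
  exact Ideal.pow_right_mono (IsLocalRing.map_maximalIdeal_le (Ideal.Quotient.mk J)) k this

end Fermat.Agent.Oddness
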