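import Mathlib.FieldTheory.IsAlgClosed.Basic
import Mathlib.Algebra.Ring.GeomSum
import Mathlib.Tactic.LinearCombination
import Mathlib.Tactic.Ring
import Mathlib.GroupTheory.OrderOfElement
import Mathlib.Algebra.CharP.Two

/-!
# Involutions of algebraically closed fields

The elementary part of Artin–Schreier: a nontrivial involution `c` of an algebraically closed
field of characteristic zero negates the square roots of `-1` and inverts every root of unity.
-/

set_option autoImplicit false

namespace Fermat.Agent.Oddness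

variable {Ω : Type*} [Field Ω] [IsAlgClosed Ω] [CharZero Ω] {E : Type*} [EquivLike E Ω Ω]
  [RingEquivClass E Ω Ω]

/-- A nontrivial involution negates any square root of `-1`. -/
theorem involution_apply_I {c : E} (hcc : ∀ x, c (c x) = x) (hne : ∃ x, c x ≠ x) {i : Ω}
    (hi : i * i = -1) : c i = -i := by
  have hci : c i * c i = i * i := by rw [← map_mul, hi, map_neg, map_one]
  rcases mul_self_eq_mul_self_iff.mp hci with h | h
  · exfalso
    obtain ⟨x, hx⟩ := hne
    set y := x - c x with hy
    have hy0 : y ≠ 0 := sub_ne_zero.mpr (Ne.symm hx)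
    have hcy : c y = -y := by rw [hy, map_sub, hcc, neg_sub]
    obtain ⟨z, hz⟩ := IsAlgClosed.exists_eq_mul_self y
    have hz0 : z ≠ 0 := by rintro rfl; exact hy0 (by simpa using hz)
    have hcz : c z * c z = (i * z) * (i * z) := by
      rw [← map_mul, ← hz, hcy, mul_mul_mul_comm, hi, ← hz, neg_one_mul]
    have hneg : c (c z) = -z := by
      rcases mul_self_eq_mul_self_iff.mp hcz with h' | h'
      · rw [h', map_mul, h, h', ← mul_assoc, hi, neg_one_mul]
      · rw [h', map_neg, map_mul, h, h', mul_neg, neg_neg, ← mul_assoc, hi, neg_one_mul]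
    rw [hcc] at hneg
    exact hz0 (CharZero.eq_neg_self_iff.mp hneg)
  · exact h

omit [CharZero Ω] in
/-- Every norm is the square of a fixed element. -/
theorem involution_norm_eq_sq {c : E} (hcc : ∀ x, c (c x) = x) (x : Ω) :
    ∃ s, c s = s ∧ x * c x = s * s := by
  obtain ⟨z, hz⟩ := IsAlgClosed.exists_eq_mul_self x
  exact ⟨z * c z, by rw [map_mul, hcc, mul_comm], by rw [hz, map_mul]; ring⟩

/-- The fixed field is formally real: `-1` is not a square of a fixed element. -/
theorem involution_fixed_sq_ne_neg_one {c : E} (hcc : ∀ x, c (c x) = x) (hne : ∃ x, c x ≠ x)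
    {t : Ω} (ht : c t = t) : t * t ≠ -1 := by
  intro h
  have h' := involution_apply_I hcc hne h
  rw [ht] at h'
  rw [CharZero.eq_neg_self_iff.mp h'] at h
  simp at h

/-- A sum of squares of fixed elements is the square of a fixed element. -/
theorem involution_sum_sq {c : E} (hcc : ∀ x, c (c x) = x) (hne : ∃ x, c x ≠ x) {ι : Type*}
    (S : Finset ι) {f : ι → Ω} (hf : ∀ j ∈ S, c (f j) = f j) :
    ∃ t, c t = t ∧ ∑ j ∈ S, f j * f j = t * t := by
  classical
  induction S using Finset.induction_on with
  | empty => exact ⟨0, map_zero c, by simp⟩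
  | @insert a S ha ih =>
    obtain ⟨b, hb, hsum⟩ := ih fun j hj => hf j (Finset.mem_insert_of_mem hj)
    obtain ⟨i, hi⟩ := IsAlgClosed.exists_eq_mul_self (-1 : Ω)
    obtain ⟨s, hs, hs'⟩ := involution_norm_eq_sq hcc (f a + i * b)
    refine ⟨s, hs, ?_⟩
    rw [Finset.sum_insert ha, hsum, ← hs', map_add, map_mul, hf a (Finset.mem_insert_self a S), hb,
      involution_apply_I hcc hne hi.symm]
    linear_combination (-(b * b)) * hi

/-- A nontrivial involution of an algebraically closed field inverts every root of unity. -/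
theorem involution_apply_rootOfUnity {c : E} (hcc : ∀ x, c (c x) = x) (hne : ∃ x, c x ≠ x)
    {ζ : Ω} {m : ℕ} (hm : m ≠ 0) (hζ : ζ ^ m = 1) : c ζ = ζ⁻¹ := by
  obtain ⟨s, hs, hs'⟩ := involution_norm_eq_sq hcc ζ
  apply eq_inv_of_mul_eq_one_right
  rw [hs']
  have hfin : IsOfFinOrder (s * s) := by
    refine isOfFinOrder_iff_pow_eq_one.mpr ⟨m, Nat.pos_of_ne_zero hm, ?_⟩
    rw [← hs', mul_pow, ← map_pow, hζ, map_one, one_mul]
  have hn := pow_orderOf_eq_one (s * s)
  have hpos := hfin.orderOf_pos
  by_contra h1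
  have hfix : ∀ j : ℕ, c (s ^ j) = s ^ j := fun j => by rw [map_pow, hs]
  rcases Nat.even_or_odd' (orderOf (s * s)) with ⟨j, hj | hj⟩
  · rw [hj, pow_mul'] at hn
    rcases sq_eq_one_iff.mp hn with h | h
    · have := orderOf_dvd_of_pow_eq_one h
      have := Nat.le_of_dvd (by omega) this
      omega
    · exact involution_fixed_sq_ne_neg_one hcc hne (hfix j) (by rw [← mul_pow, h])
  · rw [hj] at hn
    have hgeom : ∑ i ∈ Finset.range (2 * j + 1), (s * s) ^ i = 0 := by
      have := geom_sum_mul (s * s) (2 * j + 1)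
      rw [hn, sub_self] at this
      exact (mul_eq_zero.mp this).resolve_right (sub_ne_zero.mpr h1)
    obtain ⟨t, ht, hsum⟩ := involution_sum_sq hcc hne (Finset.range (2 * j))
      (f := fun i => s ^ (i + 1)) (fun i _ => hfix _)
    refine involution_fixed_sq_ne_neg_one hcc hne ht ?_
    rw [Finset.sum_range_succ', pow_zero] at hgeom
    rw [← hsum, eq_neg_iff_add_eq_zero]
    simpa [mul_pow] using hgeom

end Fermat.Agent.Oddness
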